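import Fermat.Agent.H63.SS2.Interfaces
import Fermat.Agent.H21.EsC.Period
import Fermat.Agent.H74.NormalizedEigenform
import Fermat.Agent.H50.EsC.Eigen
import Fermat.Agent.H97.ParabolicPeriod

/-!
# P-SS2, row SS2-J4 (NEW-C) (helper69)

`newClass : CorHeckeAStatement → CorHeckeBStatement → NewClassStatement`.

The period class of a newform `g` of level `L q` (`q` prime, `q ∣ L`) is killed by both
corestrictions `corA`, `corB` to level `L`.  Proof: let `v = cor (periodMap g)`.  It is a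
parabolic class of level `L`, hence (Eichler–Shimura, S21) `v = periodHomPair L (f, h)`.
By the Hecke equivariance of `cor` (hypotheses J2A/J2B), of the period map and of
`periodHomPair`, and by the injectivity of `periodHomPair L`, both `f` and `h` are joint
eigenvectors of all `T_ℓ`, `ℓ ∤ L`, with eigenvalues `a_ℓ(g)`.  If `v ≠ 0`, one of them is
nonzero and yields a normalised eigenform of level `L` with the good eigenvalues of `g`:
this contradicts `g.IsNewform`.
-/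

set_option autoImplicit false

noncomputable section

namespace Fermat.Agent.H69.SS2

open CongruenceSubgroup ModularCurve ModularCurve.Period Fermat.Agent.H21 Fermat.Agent.H63.SS2
open scoped MatrixGroups

/-- The period map is homogeneous. -/
theorem periodMap_smul_of_level (N : ℕ) [NeZero N] (a : ℂ) (f : CuspForm (Gamma0 N) 2) :
    periodMap N (a • f) = a • periodMap N f := by
  obtain ⟨pml, hpml⟩ := Fermat.Agent.H31.existsPeriodMapLinear_of
    (fun f => Fermat.Agent.H63.exists_hasEquivariantPrimitive N f)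
  rw [← hpml, ← hpml, map_smul]

/-- A prime `ℓ ∤ L` does not divide `L q` when `q ∣ L` is prime. -/
theorem not_dvd_mul_of_not_dvd {L q ℓ : ℕ} (hq : q.Prime) (hqL : q ∣ L) (hℓ : ℓ.Prime)
    (hℓL : ¬ ℓ ∣ L) : ¬ ℓ ∣ L * q := by
  intro hd
  rcases (Nat.Prime.dvd_mul hℓ).mp hd with h1 | h1
  · exact hℓL h1
  · have h2 : ℓ = q := (Nat.prime_dvd_prime_iff_eq hℓ hq).mp h1
    exact hℓL (h2 ▸ hqL)

/-- Generic form of NEW-C: an additive operator from level `L q` to level `L` which preserves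
parabolic classes, is `ℂ`-homogeneous and commutes with the good Hecke operators kills the
period class of every newform of level `L q`. -/
theorem newClass_aux (L q : ℕ) [NeZero L] [NeZero q] (hq : q.Prime) (hqL : q ∣ L)
    (cor : (Additive (Gamma0 (L * q)) →+ ℂ) →+ (Additive (Gamma0 L) →+ ℂ))
    (hpar : ∀ φ, IsParabolicHom (Gamma0 (L * q)) φ → IsParabolicHom (Gamma0 L) (cor φ))
    (hsmul : ∀ (a : ℂ) (φ : Additive (Gamma0 (L * q)) →+ ℂ), cor (a • φ) = a • cor φ)
    (hhecke : ∀ (ℓ : ℕ) (hℓ : ℓ.Prime) (hℓL : ¬ ℓ ∣ L) (hℓM : ¬ ℓ ∣ L * q)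
      (ψ : Additive (Gamma0 (L * q)) →+ ℂ),
      cor (cohT (L * q) ℓ hℓ hℓM ℂ ψ) = cohT L ℓ hℓ hℓL ℂ (cor ψ))
    (g : CuspForm (Gamma0 (L * q)) 2) (hg : g.IsNewform) :
    cor (periodMap (L * q) g) = 0 := by
  by_contra hv
  have hvpar : IsParabolicHom (Gamma0 L) (cor (periodMap (L * q) g)) :=
    hpar _ (mem_parabolicHoms_iff.mp (Fermat.Agent.H97.periodMap_mem_parabolicHoms (L * q) g))
  obtain ⟨f, h, hfh⟩ := Fermat.Agent.H21.EsC.exists_periodHomPair_eq L _ hvpar
  have hinj := (Fermat.Agent.H21.EsC.eichlerShimura L).1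
  have heig : ∀ (ℓ : ℕ) (hℓ : ℓ.Prime) (hℓL : ¬ ℓ ∣ L),
      cohT L ℓ hℓ hℓL ℂ (cor (periodMap (L * q) g))
        = ModularFormClass.qCoeff g ℓ • cor (periodMap (L * q) g) := by
    intro ℓ hℓ hℓL
    have hℓM := not_dvd_mul_of_not_dvd hq hqL hℓ hℓL
    rw [← hhecke ℓ hℓ hℓL hℓM, ← Fermat.Agent.H21.EsC.periodMapHecke (L * q) g ℓ hℓ hℓM,
      Fermat.Agent.H50.heckeTLin_eq_qCoeff_smul g hg.1 hℓ hℓM, periodMap_smul_of_level, hsmul]
  have hpair : ∀ (ℓ : ℕ) (hℓ : ℓ.Prime) (hℓL : ¬ ℓ ∣ L),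
      (CuspForm.heckeTLin 2 hℓ hℓL f, CuspForm.heckeTLin 2 hℓ hℓL h)
        = ModularFormClass.qCoeff g ℓ • (f, h) := by
    intro ℓ hℓ hℓL
    apply hinj
    rw [Fermat.Agent.H21.EsC.periodHomPair_cohT, map_smul, hfh, heig]
  have hfh0 : f ≠ 0 ∨ h ≠ 0 := by
    by_contra hcon
    rw [not_or, not_not, not_not] at hcon
    apply hv
    rw [← hfh, hcon.1, hcon.2]
    exact map_zero (periodHomPair L)
  have key : ∀ f' : CuspForm (Gamma0 L) 2, f' ≠ 0 →
      (∀ (ℓ : ℕ) (hℓ : ℓ.Prime) (hℓL : ¬ ℓ ∣ L),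
        CuspForm.heckeTLin 2 hℓ hℓL f' = ModularFormClass.qCoeff g ℓ • f') → False := by
    intro f' hf' hlam
    obtain ⟨g', hg', hcoef⟩ := Fermat.Agent.H74.exists_isNormalizedEigenform_of_eigenvector
      (fun ℓ => ModularFormClass.qCoeff g ℓ) f' hf' hlam
    refine hg.2 L (Dvd.intro q rfl) ?_
      ⟨g', hg', fun ℓ hℓ hℓM => hcoef ℓ hℓ (fun hd => hℓM (Dvd.dvd.mul_right hd q))⟩
    intro hLq
    have h1 : L * 1 = L * q := by rw [mul_one]; exact hLq
    have h2 : 1 = q := Nat.eq_of_mul_eq_mul_left (Nat.pos_of_ne_zero (NeZero.ne L)) h1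
    exact hq.one_lt.ne h2
  rcases hfh0 with hf | hh
  · exact key f hf (fun ℓ hℓ hℓL => congrArg Prod.fst (hpair ℓ hℓ hℓL))
  · exact key h hh (fun ℓ hℓ hℓL => congrArg Prod.snd (hpair ℓ hℓ hℓL))

/-- `corA` is `ℂ`-homogeneous. -/
theorem corA_smul_complex (L q : ℕ) [NeZero q] (a : ℂ) (φ : Additive (Gamma0 (L * q)) →+ ℂ) :
    corA L q ℂ (a • φ) = a • corA L q ℂ φ := by
  have h := corA_comp (L := L) (q := q) (DistribSMul.toAddMonoidHom ℂ a) φ
  exact h

/-- `corB` is `ℂ`-homogeneous. -/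
theorem corB_smul_complex (L q : ℕ) [NeZero q] (a : ℂ) (φ : Additive (Gamma0 (L * q)) →+ ℂ) :
    corB L q ℂ (a • φ) = a • corB L q ℂ φ := by
  have h := corB_comp (L := L) (q := q) (DistribSMul.toAddMonoidHom ℂ a) φ
  exact h

/-- **SS2-J4 (NEW-C).**  The period class of a newform of level `L q` (`q ∣ L`) is killed by
both corestrictions, given the Hecke equivariance of the corestrictions (J2A, J2B). -/
theorem newClass (hA : CorHeckeAStatement) (hB : CorHeckeBStatement) : NewClassStatement := by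
  intro L q _ _ hq hqL g hg
  refine ⟨?_, ?_⟩
  · exact newClass_aux L q hq hqL (corA L q ℂ) (fun φ hφ => corA_isParabolicHom φ hφ)
      (corA_smul_complex L q)
      (fun ℓ hℓ hℓL hℓM ψ => hA L q hq hqL ℓ hℓ hℓL hℓM ℂ ψ) g hg
  · exact newClass_aux L q hq hqL (corB L q ℂ) (fun φ hφ => corB_isParabolicHom φ hφ)
      (corB_smul_complex L q)
      (fun ℓ hℓ hℓL hℓM ψ => hB L q hq hqL ℓ hℓ hℓL hℓM ℂ ψ) g hg

end Fermat.Agent.H69.SS2

end
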